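import Mathlib
import Fermat.Agent.LT.T7.B981.PairBaseSpec

/-!
# Row LT, tower T7, LEAF T7.L2.1.H2a.A.0.P `ShapeC981` (helper607, registry row 2915) -- OFF-MAIN

PROVED, VERBATIM vs `LT/T7/B981/PairBaseSpec.lean` (helper981, sha256 cfa0d9f73f18ec34),
unconditional:

    shapeC607 K K' : T7.B981.ShapeC981 K K'

The sums of the data are averages of pure tensors with the local shape `LocA893`, constant `1`:
`Ω = Fin N` (discrete, counting measure), `T a = T₀ ∪ P`, `T' a` = the places over `T₀ ∪ P`.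

* `closure_iff_inU607`, `inU_zero_iff607`, `level_zero607`: the closure of the level at a place
  in terms of the exponent (`IsLevelOf893`).
* `bridge607` (one field): `T3.M.pureFnM F 𝔑 P φ₀ Φ = H305.pure305 T φ₀ Φ` if `P ⊆ T`, the
  components at `T ∖ P` are the unit functions of the level and the level is trivial outside `T`.
* `shapeC607`: the assembly (closed `T3.M.openM_c`, `pureSmoothM`, `isTestFn_T5`).
-/

set_option autoImplicit false

open AutomorphicForm IsDedekindDomain NumberField MeasureTheory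
open scoped ComplexConjugate

noncomputable section

namespace Fermat.Agent.LT.T7.B981.H607

open Fermat.Agent.LT Fermat.Agent.LT.H556 Fermat.Agent.LT.H556.A0 Fermat.Agent.LT.T7
open Fermat.Agent.LT.T7.H305 Fermat.Agent.LT.T7.H893 Fermat.Agent.LT.T7.B981

attribute [local instance] Fermat.Agent.LT.T5.instMeasurableSpaceG

section OneField

variable {F : Type} [Field F] [NumberField F]

/-- The condition of the level group at `w` is `InU (n w)`. -/
theorem closure_iff_inU607 {𝔑 : Ideal (𝓞 F)} {n : HeightOneSpectrum (𝓞 F) → ℕ}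
    (hn : IsLevelOf893 𝔑 n) (w : HeightOneSpectrum (𝓞 F)) (h : G F) :
    (∀ i j : Fin 2, (finComp w h - 1) i j ∈ idealClosure 𝔑 w ∧
        (finComp w h⁻¹ - 1) i j ∈ idealClosure 𝔑 w) ↔ T6.InU (n w) (finGL305 w h) := by
  have e : ((finGL305 w h)⁻¹ : GL (Fin 2) (w.adicCompletion F)) = finGL305 w h⁻¹ :=
    (map_inv _ _).symm
  constructor
  · intro H i j
    refine ⟨(hn w _).1 (H i j).1, ?_⟩
    rw [e]
    exact (hn w _).1 (H i j).2
  · intro H i j
    refine ⟨(hn w _).2 (H i j).1, ?_⟩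
    have h2 := (H i j).2
    rw [e] at h2
    exact (hn w _).2 h2

/-- An entry of the unit matrix is integral. -/
theorem one_entry_mem607 (w : HeightOneSpectrum (𝓞 F)) (i j : Fin 2) :
    (1 : Matrix (Fin 2) (Fin 2) (w.adicCompletion F)) i j ∈ w.adicCompletionIntegers F := by
  rw [Matrix.one_apply]
  split_ifs
  · exact one_mem _
  · exact zero_mem _

/-- `U(0) = GL₂(𝒪)`. -/
theorem inU_zero_iff607 (w : HeightOneSpectrum (𝓞 F)) (h : G F) :
    T6.InU 0 (finGL305 w h) ↔ IsIntegralAt w h ∧ IsIntegralAt w h⁻¹ := by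
  have e : ((finGL305 w h)⁻¹ : GL (Fin 2) (w.adicCompletion F)) = finGL305 w h⁻¹ :=
    (map_inv _ _).symm
  have h1 : WithZero.exp (-((0 : ℕ) : ℤ)) = (1 : T6.Γ₀) := by
    rw [Nat.cast_zero, neg_zero, WithZero.exp_zero]
  have key : ∀ (x : w.adicCompletion F) (i j : Fin 2),
      Valued.v (x - (1 : Matrix (Fin 2) (Fin 2) (w.adicCompletion F)) i j)
        ≤ WithZero.exp (-((0 : ℕ) : ℤ)) ↔ x ∈ w.adicCompletionIntegers F := by
    intro x i j
    rw [h1]
    constructor
    · intro hx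
      have h2 : x - (1 : Matrix (Fin 2) (Fin 2) (w.adicCompletion F)) i j
          ∈ w.adicCompletionIntegers F := hx
      have h3 := add_mem h2 (one_entry_mem607 w i j)
      rwa [sub_add_cancel] at h3
    · intro hx
      exact sub_mem hx (one_entry_mem607 w i j)
  constructor
  · intro H
    refine ⟨fun i j => (key _ i j).1 (H i j).1, fun i j => ?_⟩
    have h2 := (H i j).2
    rw [e] at h2
    exact (key _ i j).1 h2
  · intro H i j
    refine ⟨(key _ i j).2 (H.1 i j), ?_⟩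
    rw [e]
    exact (key _ i j).2 (H.2 i j)

/-- The exponent of the level vanishes at a place which does not divide the level. -/
theorem level_zero607 {𝔑 : Ideal (𝓞 F)} {n : HeightOneSpectrum (𝓞 F) → ℕ}
    (hn : IsLevelOf893 𝔑 n) (w : HeightOneSpectrum (𝓞 F)) (a : 𝓞 F) (ha : a ∈ 𝔑)
    (haw : a ∉ w.asIdeal) : n w = 0 := by
  have hmem : algebraMap F (w.adicCompletion F) (algebraMap (𝓞 F) F a) ∈ idealClosure 𝔑 w :=
    subset_closure ⟨a, ha, rfl⟩
  have h1 := (hn w _).1 hmem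
  have e0 : Valued.v (algebraMap F (w.adicCompletion F) (algebraMap (𝓞 F) F a))
      = w.valuation F (algebraMap (𝓞 F) F a) :=
    HeightOneSpectrum.valuedAdicCompletion_eq_valuation' w (algebraMap (𝓞 F) F a)
  rw [e0, (HeightOneSpectrum.valuation_eq_one_iff_notMem (K := F) (v := w)).2 haw,
    ← WithZero.exp_zero, WithZero.exp_le_exp] at h1
  omega

open Classical in
/-- **THE BRIDGE** between the pure tensors of T3 (station M) and of T7 (helper305). -/
theorem bridge607 {𝔑 : Ideal (𝓞 F)} {n : HeightOneSpectrum (𝓞 F) → ℕ}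
    (hn : IsLevelOf893 𝔑 n) (P T : Finset (HeightOneSpectrum (𝓞 F))) (hPT : P ⊆ T)
    (φ₀ : ∀ w : HeightOneSpectrum (𝓞 F), GL (Fin 2) (w.adicCompletion F) → ℂ)
    (Φ : InfinitePlace F → GL (Fin 2) ℂ → ℂ)
    (hunit : ∀ w ∈ T, w ∉ P → φ₀ w = unitFn893 (n w))
    (hzero : ∀ w : HeightOneSpectrum (𝓞 F), w ∉ T → n w = 0) :
    T3.M.pureFnM F 𝔑 P φ₀ Φ = pure305 T φ₀ Φ := by
  funext h
  have hout : OutT305 T h ↔ ∀ w, w ∉ T → T6.InU (n w) (finGL305 w h) := by
    constructor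
    · intro H w hw
      rw [hzero w hw]
      exact (inU_zero_iff607 w h).2 (H w hw)
    · intro H w hw
      have h2 := H w hw
      rw [hzero w hw] at h2
      exact (inU_zero_iff607 w h).1 h2
  have hUM : T3.M.OutsideUM F 𝔑 P h ↔ ∀ w, w ∉ P → T6.InU (n w) (finGL305 w h) := by
    constructor
    · intro H w hw
      exact (closure_iff_inU607 hn w h).1 (H w hw)
    · intro H w hw
      exact (closure_iff_inU607 hn w h).2 (H w hw)
  have hprod : (∀ w ∈ T, w ∉ P → T6.InU (n w) (finGL305 w h)) →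
      ∏ w ∈ T, φ₀ w (finGL305 w h) = ∏ w ∈ P, φ₀ w (finGL305 w h) := by
    intro H
    refine (Finset.prod_subset hPT fun w hw hwP => ?_).symm
    rw [hunit w hw hwP]
    show (if T6.InU (n w) (finGL305 w h) then (1 : ℂ) else 0) = 1
    rw [if_pos (H w hw hwP)]
  by_cases hU : T3.M.OutsideUM F 𝔑 P h
  · have hU' := hUM.1 hU
    have hO : OutT305 T h := hout.2 fun w hw => hU' w (fun hP => hw (hPT hP))
    show (if T3.M.OutsideUM F 𝔑 P h then
        (∏ v ∈ P, φ₀ v (T3.AS.finGL F v h)) * ∏ w : InfinitePlace F, Φ w (T3.AS.infGL F w h)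
      else 0)
      = (if OutT305 T h then
        (∏ v ∈ T, φ₀ v (finGL305 v h)) * ∏ w : InfinitePlace F, Φ w (infGL305 w h) else 0)
    rw [if_pos hU, if_pos hO, hprod fun w _ hwP => hU' w hwP]
    rfl
  · show (if T3.M.OutsideUM F 𝔑 P h then
        (∏ v ∈ P, φ₀ v (T3.AS.finGL F v h)) * ∏ w : InfinitePlace F, Φ w (T3.AS.infGL F w h)
      else 0)
      = (if OutT305 T h then
        (∏ v ∈ T, φ₀ v (finGL305 v h)) * ∏ w : InfinitePlace F, Φ w (infGL305 w h) else 0)
    rw [if_neg hU]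
    by_cases hO : OutT305 T h
    · rw [if_pos hO]
      have hex : ∃ w, w ∉ P ∧ ¬ T6.InU (n w) (finGL305 w h) := by
        by_contra hcon
        push Not at hcon
        exact hU (hUM.2 hcon)
      obtain ⟨w, hwP, hwn⟩ := hex
      have hwT : w ∈ T := by
        by_contra hwT
        exact hwn (hout.1 hO w hwT)
      have h0 : φ₀ w (finGL305 w h) = 0 := by
        rw [hunit w hwT hwP]
        show (if T6.InU (n w) (finGL305 w h) then (1 : ℂ) else 0) = 0
        rw [if_neg hwn]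
      rw [Finset.prod_eq_zero hwT h0, zero_mul]
    · rw [if_neg hO]

end OneField

section TwoFields

variable {K K' : Type} [Field K] [NumberField K] [Field K'] [NumberField K'] [Algebra K K']

/-- Every place of `K'` lies over a place of `K`. -/
theorem exists_under607 (w : HeightOneSpectrum (𝓞 K')) :
    ∃ v : HeightOneSpectrum (𝓞 K), PlaceOver K K' v w := by
  refine ⟨HeightOneSpectrum.under (𝓞 K) w, (H557.placeOver_iff_557 _ w).2 ?_⟩
  simp only [HeightOneSpectrum.under_asIdeal]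

/-- The exponents of `𝔫` and of `𝔫 𝒪_{K'}` vanish outside the places of the level. -/
theorem levelAt607 {𝔫 : Ideal (𝓞 K)} {T₀ : Finset (HeightOneSpectrum (𝓞 K))}
    {n : HeightOneSpectrum (𝓞 K') → ℕ} {m : HeightOneSpectrum (𝓞 K) → ℕ}
    (hT₀ : ∀ v : HeightOneSpectrum (𝓞 K), v ∈ T₀ ↔ v.asIdeal ∣ 𝔫)
    (hm : IsLevelOf893 𝔫 m) (hn : IsLevelOf893 (upI (K' := K') 𝔫) n) :
    IsLevelAt305 (K' := K') T₀ n m := by
  have hex : ∀ v : HeightOneSpectrum (𝓞 K), v ∉ T₀ → ∃ a ∈ 𝔫, a ∉ v.asIdeal := by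
    intro v hv
    have h1 : ¬ 𝔫 ≤ v.asIdeal := fun h => hv ((hT₀ v).2 (Ideal.dvd_iff_le.2 h))
    obtain ⟨a, ha, hav⟩ := Set.not_subset.1 h1
    exact ⟨a, ha, hav⟩
  refine ⟨fun v hv => ?_, fun v w hv hvw => ?_⟩
  · obtain ⟨a, ha, hav⟩ := hex v hv
    exact level_zero607 hm v a ha hav
  · obtain ⟨a, ha, hav⟩ := hex v hv
    refine level_zero607 hn w (algebraMap (𝓞 K) (𝓞 K') a) (Ideal.mem_map_of_mem _ ha) ?_
    exact fun h => hav ((hvw a (algebraMap (𝓞 K) (𝓞 K') a) rfl).2 h)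

end TwoFields

section Leaf

variable (K K' : Type) [Field K] [NumberField K] [Field K'] [NumberField K'] [Algebra K K']

/-- **LEAF T7.L2.1.H2a.A.0.P `ShapeC981`, VERBATIM, unconditional.** -/
theorem shapeC607 : ShapeC981 K K' := by
  classical
  intro ℓ _ _ Φe B _ 𝔫 _ μc _ T₀ n n₀ m hexp D hD
  have hLA : IsLevelAt305 (K' := K') T₀ n m := levelAt607 hexp.mem_T₀ hexp.lev_m hexp.lev_n
  have hPT₀ : ∀ v ∈ D.P, v ∉ T₀ := fun v hv hT => hD.frame_dn.prime v hv ((hexp.mem_T₀ v).1 hT)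
  -- the sets of places
  obtain ⟨T', hT'⟩ : ∃ T' : Finset (HeightOneSpectrum (𝓞 K')), IsOver305 (T₀ ∪ D.P) T' :=
    ⟨(H557.finite_over_557 (K' := K') (T₀ ∪ D.P)).toFinset, fun w => by
      rw [Set.Finite.mem_toFinset]
      exact Iff.rfl⟩
  have hP'T' : D.P' ⊆ T' := by
    intro w hw
    obtain ⟨v, hv⟩ := exists_under607 (K := K) w
    exact (hT' w).2 ⟨v, Finset.mem_union_right _ ((hD.under v).2 ⟨w, hw, hv⟩), hv⟩
  -- the bridges
  have hbu : ∀ i : Fin D.N, T3.M.pureFnM K' (upI (K' := K') 𝔫) D.P' (D.φ₀ i) (D.Φ i)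
      = pure305 T' (D.φ₀ i) (D.Φ i) := by
    intro i
    refine bridge607 hexp.lev_n D.P' T' hP'T' _ _ (fun w hw hwP => ?_) (fun w hw => ?_)
    · obtain ⟨v, hv, hvw⟩ := (hT' w).1 hw
      rcases Finset.mem_union.1 hv with hv | hv
      · exact (hD.loc i).2.1 v hv w hvw
      · rw [hD.unit_rest i w hwP ⟨v, hv, hvw⟩, hLA.2 v w (hPT₀ v hv) hvw]
    · obtain ⟨v, hv⟩ := exists_under607 (K := K) w
      refine hLA.2 v w (fun hT => hw ((hT' w).2 ⟨v, Finset.mem_union_left _ hT, hv⟩)) hv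
  have hbd : ∀ i : Fin D.N, T3.M.pureFnM K 𝔫 D.P (D.f₀ i) (D.F i)
      = pure305 (T₀ ∪ D.P) (D.f₀ i) (D.F i) := by
    intro i
    refine bridge607 hexp.lev_m D.P (T₀ ∪ D.P) Finset.subset_union_right _ _
      (fun v hv hvP => ?_) (fun v hv => ?_)
    · rcases Finset.mem_union.1 hv with hv | hv
      · rw [(hD.loc i).1 v hv]
      · exact absurd hv hvP
    · exact hLA.1 v fun hT => hv (Finset.mem_union_left _ hT)
  -- the members are test functions
  have htu : ∀ i : Fin D.N, T5.IsTestFn (upI (K' := K') 𝔫) T5.trivType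
      (pure305 T' (D.φ₀ i) (D.Φ i)) := by
    intro i
    obtain ⟨r1, r2, r3, -⟩ := (T3.M.openM_c K').pureReg (upI (K' := K') 𝔫) hD.frame_up.level
      D.P' hD.frame_up.prime (D.φ₀ i) (D.Φ i) (fun w hw => (hD.sat_up i w hw).bi_inv)
      (fun w hw => (hD.sat_up i w hw).fin_supp) (hD.test_up i)
    rw [← hbu i]
    exact T3.isTestFn_T5 K' r1 r2 (T3.M.pureSmoothM _ _ _ _ (hD.smooth_up i)) r3
  have htd : ∀ i : Fin D.N, T5.IsTestFn 𝔫 T5.trivType
      (fun h => (1 : ℂ) * pure305 (T₀ ∪ D.P) (D.f₀ i) (D.F i) h) := by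
    intro i
    obtain ⟨r1, r2, r3, -⟩ := (T3.M.openM_c K).pureReg 𝔫 hD.frame_dn.level
      D.P hD.frame_dn.prime (D.f₀ i) (D.F i) (fun v hv => (hD.sat_dn i v hv).bi_inv)
      (fun v hv => (hD.sat_dn i v hv).fin_supp) (hD.test_dn i)
    have e : (fun h => (1 : ℂ) * pure305 (T₀ ∪ D.P) (D.f₀ i) (D.F i) h)
        = T3.M.pureFnM K 𝔫 D.P (D.f₀ i) (D.F i) := by
      rw [hbd i]
      funext h
      exact one_mul _
    rw [e]
    exact T3.isTestFn_T5 K r1 r2 (T3.M.pureSmoothM _ _ _ _ (hD.smooth_dn i)) r3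
  refine ⟨Fin D.N, inferInstance, inferInstance, inferInstance, inferInstance, inferInstance,
    ⟨borel_eq_top_of_discrete.symm⟩, Measure.count, inferInstance, fun _ => T₀ ∪ D.P,
    fun _ => T', D.φ₀, D.Φ, D.f₀, D.F, ?_, htu, htd, ?_, ?_, ?_, ?_, ?_, ?_⟩
  · exact fun a => ⟨Finset.subset_union_left, hT', hD.loc a⟩
  · exact continuous_prod_of_discrete_left.2 fun a => (htu a).cont
  · exact continuous_prod_of_discrete_left.2 fun a => (htd a).cont
  · refine ⟨⋃ i : Fin D.N, tsupport (pure305 T' (D.φ₀ i) (D.Φ i)),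
      isCompact_iUnion fun i => (htu i).supp, fun a h hne => ?_⟩
    exact Set.mem_iUnion.2 ⟨a, subset_tsupport _ hne⟩
  · refine ⟨⋃ i : Fin D.N, tsupport (pure305 (T₀ ∪ D.P) (D.f₀ i) (D.F i)),
      isCompact_iUnion fun i => ?_, fun a h hne => ?_⟩
    · have h1 := (htd i).supp
      have e : (fun h => (1 : ℂ) * pure305 (T₀ ∪ D.P) (D.f₀ i) (D.F i) h)
          = pure305 (T₀ ∪ D.P) (D.f₀ i) (D.F i) := funext fun h => one_mul _
      rw [e] at h1
      exact h1
    · exact Set.mem_iUnion.2 ⟨a, subset_tsupport _ hne⟩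
  · intro h
    rw [integral_count]
    show ∑ i : Fin D.N, T3.M.pureFnM K' (upI (K' := K') 𝔫) D.P' (D.φ₀ i) (D.Φ i) h = _
    exact Finset.sum_congr rfl fun i _ => congrFun (hbu i) h
  · intro h
    rw [integral_count]
    show ∑ i : Fin D.N, T3.M.pureFnM K 𝔫 D.P (D.f₀ i) (D.F i) h = _
    refine Finset.sum_congr rfl fun i _ => ?_
    rw [congrFun (hbd i) h, one_mul]

end Leaf

end Fermat.Agent.LT.T7.B981.H607

end
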